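import Mathlib
import Fermat.Agent.Lib.Cyclo.ModCharGlobal
import Fermat.Agent.S30.Iface

section MergeWrap_Lib_Cyclo_PadicChar -- from Lib/Cyclo/PadicChar.lean

set_option autoImplicit false

/-!
# Lib/Cyclo, part 5: the `p`-adic cyclotomic character of `G_ℚ`

`padicChar p : G_ℚ →* ℤ_[p]ˣ` (Mathlib's `cyclotomicCharacter` for `ℚ̄`), with
* `toZModPow_padicChar`: its reduction mod `p ^ k` is `modChar (p ^ k)`;
* `padicChar_frobenius`: value `ℓ` at a Frobenius element at `ℓ ≠ p`;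
* `padicChar_inertia`: trivial on inertia at `ℓ ≠ p`;
* `padicChar_sub_one_mem`: `χ(σ) - 1 ∈ (p ^ k)` if `σ` fixes `ℚ(μ_{p^k})`;
* `padicChar_complexConjugation`: `χ(c) = -1`.
-/

namespace Fermat.Agent.Cyclo

open ValuationSubring

variable (p : ℕ) [Fact p.Prime]

/-- The `p`-adic cyclotomic character of `G_ℚ`. -/
noncomputable def padicChar : GQ →* ℤ_[p]ˣ :=
  (cyclotomicCharacter Qb p).comp (MulSemiringAction.toRingAut GQ Qb)

theorem neZero_pow (k : ℕ) : NeZero (p ^ k) := ⟨pow_ne_zero k (Fact.out : p.Prime).ne_zero⟩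

theorem toZModPow_padicChar (k : ℕ) (σ : GQ) :
    haveI : NeZero (p ^ k) := neZero_pow p k
    PadicInt.toZModPow k ((padicChar p σ : ℤ_[p]ˣ) : ℤ_[p])
      = ((modChar (p ^ k) σ : (ZMod (p ^ k))ˣ) : ZMod (p ^ k)) := by
  haveI : NeZero (p ^ k) := neZero_pow p k
  exact cyclotomicCharacter.toZModPow p (MulSemiringAction.toRingAut GQ Qb σ)

theorem not_dvd_pow_of_prime_ne {ℓ : ℕ} (hℓ : ℓ.Prime) (hℓp : ℓ ≠ p) (k : ℕ) : ¬ ℓ ∣ p ^ k :=
  fun h => hℓp ((Nat.prime_dvd_prime_iff_eq hℓ (Fact.out : p.Prime)).mp (hℓ.dvd_of_dvd_pow h))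

/-- **Value at Frobenius.** -/
theorem padicChar_frobenius {ℓ : ℕ} (hℓ : ℓ.Prime) (hℓp : ℓ ≠ p)
    (A : ValuationSubring Qb) (hA : A.LiesOverPrime ℓ) (σ : GQ) (hσ : A.IsFrobeniusAt σ ℓ) :
    ((padicChar p σ : ℤ_[p]ˣ) : ℤ_[p]) = (ℓ : ℤ_[p]) := by
  rw [← PadicInt.ext_of_toZModPow]
  intro k
  haveI : NeZero (p ^ k) := neZero_pow p k
  rw [toZModPow_padicChar, map_natCast]
  exact modChar_frobenius (p ^ k) hℓ (not_dvd_pow_of_prime_ne p hℓ hℓp k) A hA σ hσ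

/-- **Triviality on inertia.** -/
theorem padicChar_inertia {ℓ : ℕ} (hℓ : ℓ.Prime) (hℓp : ℓ ≠ p)
    (A : ValuationSubring Qb) (hA : A.LiesOverPrime ℓ) (σ : GQ)
    (hσ : σ ∈ A.inertiaSubgroupIn ℚ) : padicChar p σ = 1 := by
  apply Units.ext
  rw [Units.val_one, ← PadicInt.ext_of_toZModPow]
  intro k
  haveI : NeZero (p ^ k) := neZero_pow p k
  rw [toZModPow_padicChar, map_one,
    modChar_inertia (p ^ k) hℓ (not_dvd_pow_of_prime_ne p hℓ hℓp k) A hA σ hσ, Units.val_one]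

/-- **Complex conjugation.** -/
theorem padicChar_complexConjugation : padicChar p complexConjugation = -1 := by
  apply Units.ext
  rw [Units.val_neg, Units.val_one, ← PadicInt.ext_of_toZModPow]
  intro k
  haveI : NeZero (p ^ k) := neZero_pow p k
  rw [toZModPow_padicChar, map_neg, map_one, modChar_complexConjugation (p ^ k), Units.val_neg,
    Units.val_one]

/-- **Level**: `χ(σ) ≡ 1 mod p ^ k` if `σ` fixes `ℚ(μ_{p^k})`. -/
theorem padicChar_sub_one_mem (k : ℕ) (σ : GQ)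
    (h : haveI : NeZero (p ^ k) := neZero_pow p k; ∀ x ∈ cycloField (p ^ k), σ x = x) :
    ((padicChar p σ : ℤ_[p]ˣ) : ℤ_[p]) - 1 ∈ Ideal.span {(p : ℤ_[p]) ^ k} := by
  haveI : NeZero (p ^ k) := neZero_pow p k
  rw [← PadicInt.ker_toZModPow, RingHom.mem_ker, map_sub, map_one, toZModPow_padicChar,
    modChar_eq_one_of_fix_cycloField (p ^ k) σ h, Units.val_one, sub_self]

theorem padicChar_level (k : ℕ) : ∃ L : IntermediateField ℚ Qb, FiniteDimensional ℚ L ∧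
    Normal ℚ L ∧ ∀ σ : GQ, (∀ x ∈ L, σ x = x) →
      ((padicChar p σ : ℤ_[p]ˣ) : ℤ_[p]) - 1 ∈ Ideal.span {(p : ℤ_[p]) ^ k} :=
  haveI : NeZero (p ^ k) := neZero_pow p k
  ⟨cycloField (p ^ k), inferInstance, inferInstance, fun σ h => padicChar_sub_one_mem p k σ h⟩

end Fermat.Agent.Cyclo
end MergeWrap_Lib_Cyclo_PadicChar

section MergeWrap_Lib_Cyclo_PadicToComplete -- from Lib/Cyclo/PadicToComplete.lean

set_option autoImplicit false

/-!
# Lib/Cyclo, part 6: a ring homomorphism `ℤ_[p] →+* S` for an `I`-adically complete ring `S`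
with `p ∈ I`
-/

namespace Fermat.Agent.Cyclo

open Ideal

variable (p : ℕ) [Fact p.Prime] {S : Type*} [CommRing S] (I : Ideal S)

theorem natCast_pow_quot_eq_zero (hp : (p : S) ∈ I) (n : ℕ) :
    (((p ^ n : ℕ) : S ⧸ I ^ n)) = 0 := by
  have h1 : ((p ^ n : ℕ) : S ⧸ I ^ n) = Ideal.Quotient.mk (I ^ n) ((p : S) ^ n) := by
    push_cast
    rfl
  rw [h1, Ideal.Quotient.eq_zero_iff_mem]
  exact Ideal.pow_mem_pow hp n

/-- the level `n` map `ℤ_[p] → ZMod (p ^ n) → S ⧸ I ^ n` -/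
noncomputable def padicToQuot (hp : (p : S) ∈ I) (n : ℕ) : ℤ_[p] →+* S ⧸ I ^ n :=
  haveI : CharP (S ⧸ I ^ n) (ringChar (S ⧸ I ^ n)) := ringChar.charP _
  (ZMod.castHom (ringChar.dvd (natCast_pow_quot_eq_zero p I hp n)) (S ⧸ I ^ n)).comp
    (PadicInt.toZModPow n)

theorem padicToQuot_compat (hp : (p : S) ∈ I) {m n : ℕ} (hle : m ≤ n) :
    (Ideal.Quotient.factorPow I hle).comp (padicToQuot p I hp n) = padicToQuot p I hp m := by
  haveI : CharP (S ⧸ I ^ n) (ringChar (S ⧸ I ^ n)) := ringChar.charP _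
  haveI : CharP (S ⧸ I ^ m) (ringChar (S ⧸ I ^ m)) := ringChar.charP _
  unfold padicToQuot
  rw [← PadicInt.zmod_cast_comp_toZModPow m n hle, ← RingHom.comp_assoc, ← RingHom.comp_assoc]
  congr 1
  exact RingHom.ext_zmod _ _

/-- A ring homomorphism `ℤ_[p] →+* S` for an `I`-adically complete ring `S` with `p ∈ I`. -/
noncomputable def padicToComplete [IsAdicComplete I S] (hp : (p : S) ∈ I) : ℤ_[p] →+* S :=
  IsAdicComplete.liftRingHom I (padicToQuot p I hp) (fun hle => padicToQuot_compat p I hp hle)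

theorem padicToComplete_mem [IsAdicComplete I S] (hp : (p : S) ∈ I) (k : ℕ) {x : ℤ_[p]}
    (hx : x ∈ Ideal.span {(p : ℤ_[p]) ^ k}) : padicToComplete p I hp x ∈ I ^ k := by
  obtain ⟨y, rfl⟩ := Ideal.mem_span_singleton'.mp hx
  rw [map_mul, map_pow, map_natCast]
  exact Ideal.mul_mem_left _ _ (Ideal.pow_mem_pow hp k)

end Fermat.Agent.Cyclo
end MergeWrap_Lib_Cyclo_PadicToComplete

section MergeWrap_Lib_Cyclo_CharData -- from Lib/Cyclo/CharData.lean

set_option autoImplicit false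

/-!
# Lib/Cyclo, part 7: `CycloCharData p 𝒪` (work package W2 of the S30 core)

For a local ring `𝒪`, complete for the topology of its maximal ideal, with `p ∈ 𝔪`, the
`p`-adic cyclotomic character `G_ℚ → ℤ_[p]ˣ → 𝒪ˣ` has the four properties of
`Fermat.Agent.S30.CycloCharData`.
-/

namespace Fermat.Agent.Cyclo

open IsLocalRing

variable (p : ℕ) [Fact p.Prime] (𝒪 : Type) [CommRing 𝒪] [IsLocalRing 𝒪]
  [IsAdicComplete (maximalIdeal 𝒪) 𝒪]

/-- The `p`-adic cyclotomic character with values in `𝒪ˣ`. -/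
noncomputable def epsO (hp : (p : 𝒪) ∈ maximalIdeal 𝒪) : GQ →* 𝒪ˣ :=
  (Units.map ((padicToComplete p (maximalIdeal 𝒪) hp : ℤ_[p] →+* 𝒪) : ℤ_[p] →* 𝒪)).comp
    (padicChar p)

theorem epsO_apply (hp : (p : 𝒪) ∈ maximalIdeal 𝒪) (σ : GQ) :
    ((epsO p 𝒪 hp σ : 𝒪ˣ) : 𝒪)
      = padicToComplete p (maximalIdeal 𝒪) hp ((padicChar p σ : ℤ_[p]ˣ) : ℤ_[p]) := rfl

/-- **W2**: the cyclotomic character data for the S30 core. -/
noncomputable def cycloCharData (hp : (p : 𝒪) ∈ maximalIdeal 𝒪) :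
    Fermat.Agent.S30.CycloCharData p 𝒪 where
  ε := epsO p 𝒪 hp
  frob := by
    intro ℓ hℓ hℓp A hA σ hσ
    rw [epsO_apply, padicChar_frobenius p hℓ hℓp A hA σ hσ, map_natCast]
  inertia := by
    intro ℓ hℓ hℓp A hA σ hσ
    unfold epsO
    rw [MonoidHom.comp_apply, padicChar_inertia p hℓ hℓp A hA σ hσ, map_one]
  level := by
    intro n
    obtain ⟨L, hL, -, h⟩ := padicChar_level p n
    refine ⟨L, hL, fun σ hσ => ?_⟩
    have := padicToComplete_mem p (maximalIdeal 𝒪) hp n (h σ hσ)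
    rwa [map_sub, map_one, ← epsO_apply] at this
  conj := by
    unfold epsO
    rw [MonoidHom.comp_apply, padicChar_complexConjugation p]
    apply Units.ext
    simp

theorem nonempty_cycloCharData (hp : (p : 𝒪) ∈ maximalIdeal 𝒪) :
    Nonempty (Fermat.Agent.S30.CycloCharData p 𝒪) := ⟨cycloCharData p 𝒪 hp⟩

end Fermat.Agent.Cyclo
end MergeWrap_Lib_Cyclo_CharData
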